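/-
Fermat/Agent/MAZ/Hmem19/Main.lean  (helper19)

Programme MAZ (S15), brick HMEM: **`G_k = J₀(p)[r^k]_m` lies in the Selmer class**

  `(selSystem r (r ^ k) χ 𝒥).mem (GmStable p r S k).W`
    `↔ (FlatMod r (r ^ k) G_k ∧ ∀ J ∈ 𝒥, ActsTrivially J G_k) ∧ RClass r χ G_k`

from the three inputs, each in the shape in which its brick delivers it:

* (i)   `hflat : HasFlatModel r ↥(Submodule.torsionBy ℤ (JZero p) ((r : ℤ) ^ k)) (torsionAct p ((r : ℤ) ^ k))`
        = one instance of `Flat44.S19FlatTarget` (S19 at level `p`, `r ∤ p`)          [T1A]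
        ⇒ `FlatMod` by `HasFlatModel.sub` + `of_equiv`;
* (ii)  `hunr : ∀ J ∈ 𝒥, ∀ s ∈ J, ∀ x : JZero p, r ^ k • x = 0 → s • x = x`           [UNR-G, helper64]
* (iii) `hR : RClass r χ G_k`  (or `Constituents5.IsQuadNilp χ (GmMod p r S k)`)      [X-ES-A1, helper89]

Also the bridge `GmStable p r S k = Gm5.gmStable p r S k` (`rfl`), so that statements about helper5's
`GmMod p r S k` apply verbatim.
-/
import Mathlib
import Fermat.Agent.MAZ.FinAbs19.SFin
import Fermat.Agent.MAZ.Gm5.Stable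
import Fermat.Agent.MAZ.FlatCond42.SSelBridge
import Fermat.Agent.Flat44.S19Target

set_option autoImplicit false
set_option linter.unusedSectionVars false
set_option linter.unusedVariables false
set_option linter.style.haveILetI false

open AlgebraicCurve ModularCurve

noncomputable section

namespace Fermat.Agent.MAZ.Hmem19

open Fermat.Agent.Flat44 Fermat.Agent.MAZ.SelCoh42 Fermat.Agent.MAZ.FlatCond42
open Fermat.Agent.MAZ.FinAbs19

variable (p : ℕ) [NeZero p]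

/-- `FinAbs19.GmStable` is helper5's `Gm5.gmStable`. -/
theorem GmStable_eq_gmStable (r : ℕ) (S : Finset ℕ) (k : ℕ) :
    GmStable p r S k = Gm5.gmStable p r S k := rfl

/-- The copy of `G_k` inside `J₀(p)[r ^ k] = Submodule.torsionBy ℤ (JZero p) (r ^ k)`. -/
def gmInTorsion (r : ℕ) (S : Finset ℕ) (k : ℕ) :
    AddSubgroup ↥(Submodule.torsionBy ℤ (JZero p) ((r : ℤ) ^ k)) where
  carrier := {x | (x : JZero p) ∈ (GmStable p r S k).W}
  zero_mem' := (GmStable p r S k).W.zero_mem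
  add_mem' := fun ha hb => (GmStable p r S k).W.add_mem ha hb
  neg_mem' := fun ha => (GmStable p r S k).W.neg_mem ha

theorem mem_torsionBy_of_mem_Gm {r : ℕ} {S : Finset ℕ} {k : ℕ} {y : JZero p}
    (hy : y ∈ (GmStable p r S k).W) : y ∈ Submodule.torsionBy ℤ (JZero p) ((r : ℤ) ^ k) := by
  rw [Submodule.mem_torsionBy_iff]
  have h : r ^ k • y = 0 := hy.1
  rw [← h, ← Nat.cast_pow, natCast_zsmul]

/-- `gmInTorsion ≃+ G_k`. -/
def gmInTorsionEquiv (r : ℕ) (S : Finset ℕ) (k : ℕ) :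
    ↥(gmInTorsion p r S k) ≃+ (GmStable p r S k).W where
  toFun x := ⟨(x.1 : JZero p), x.2⟩
  invFun y := ⟨⟨y.1, mem_torsionBy_of_mem_Gm p y.2⟩, y.2⟩
  left_inv _ := rfl
  right_inv _ := rfl
  map_add' _ _ := rfl

/-- (i) **`G_k` has a finite flat model** as soon as `J₀(p)[r ^ k]` has one. -/
theorem hasFlatModel_Gm (r : ℕ) (S : Finset ℕ) (k : ℕ)
    (hflat : HasFlatModel r ↥(Submodule.torsionBy ℤ (JZero p) ((r : ℤ) ^ k))
      (torsionAct p ((r : ℤ) ^ k))) :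
    HasFlatModel r (GmStable p r S k).W (modAct (GmStable p r S k).W) := by
  have h1 := hflat.sub (gmInTorsion p r S k)
    (fun σ x => ⟨torsionAct p ((r : ℤ) ^ k) σ x.1, (GmStable p r S k).stable σ _ x.2⟩)
    (fun σ x => rfl)
  exact h1.of_equiv (gmInTorsionEquiv p r S k) (fun σ x => rfl)

theorem flatMod_Gm (r : ℕ) (S : Finset ℕ) (k : ℕ)
    (hflat : HasFlatModel r ↥(Submodule.torsionBy ℤ (JZero p) ((r : ℤ) ^ k))
      (torsionAct p ((r : ℤ) ^ k))) :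
    FlatMod r (r ^ k) (GmStable p r S k).W :=
  ⟨fun y => Subtype.ext y.2.1, hasFlatModel_Gm p r S k hflat⟩

/-- (ii) a subgroup acting trivially on `J₀(p)[r ^ k]` acts trivially on `G_k`. -/
theorem actsTrivially_Gm (r : ℕ) (S : Finset ℕ) (k : ℕ) (J : Subgroup GQ)
    (h : ∀ s ∈ J, ∀ x : JZero p, r ^ k • x = 0 → s • x = x) :
    ActsTrivially J (GmStable p r S k).W :=
  fun s hs x => Subtype.ext (h s hs x.1 x.2.1)

/-- `G_k` is killed by `r ^ k`. -/
theorem rpow_smul_Gm (r : ℕ) (S : Finset ℕ) (k : ℕ) (x : (GmStable p r S k).W) :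
    r ^ k • x = 0 := Subtype.ext x.2.1

/-- **HMEM**: `G_k` is in the Selmer class. -/
theorem mem_selSystem_Gm (r : ℕ) (S : Finset ℕ) (k : ℕ) [NeZero (r ^ k)] (χ : GQ →* (ZMod r)ˣ)
    (𝒥 : Set (Subgroup GQ))
    (hflat : HasFlatModel r ↥(Submodule.torsionBy ℤ (JZero p) ((r : ℤ) ^ k))
      (torsionAct p ((r : ℤ) ^ k)))
    (hunr : ∀ J ∈ 𝒥, ∀ s ∈ J, ∀ x : JZero p, r ^ k • x = 0 → s • x = x)
    (hnil : NilQuad χ (GmStable p r S k).W) :
    (selSystem r (r ^ k) χ 𝒥).mem (GmStable p r S k).W :=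
  ⟨⟨flatMod_Gm p r S k hflat, fun J hJ => actsTrivially_Gm p r S k J (hunr J hJ)⟩,
    ⟨⟨k, rpow_smul_Gm p r S k⟩, hnil⟩⟩

/-- **HMEM**, with (iii) in helper5's form `Constituents5.IsQuadNilp χ (GmMod p r S k)`. -/
theorem mem_selSystem_Gm_of_isQuadNilp (r : ℕ) (S : Finset ℕ) (k : ℕ) [NeZero (r ^ k)]
    (χ : GQ →* (ZMod r)ˣ) (𝒥 : Set (Subgroup GQ))
    (hflat : HasFlatModel r ↥(Submodule.torsionBy ℤ (JZero p) ((r : ℤ) ^ k))
      (torsionAct p ((r : ℤ) ^ k)))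
    (hunr : ∀ J ∈ 𝒥, ∀ s ∈ J, ∀ x : JZero p, r ^ k • x = 0 → s • x = x)
    (hQ : Fermat.Agent.MAZ.Constituents5.IsQuadNilp χ (Gm5.GmMod p r S k)) :
    (selSystem r (r ^ k) χ 𝒥).mem (GmStable p r S k).W := by
  have h : RClass r χ (GmStable p r S k).W := rClass_of_isQuadNilp hQ
  exact mem_selSystem_Gm p r S k χ 𝒥 hflat hunr h.2

end Fermat.Agent.MAZ.Hmem19
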